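import Fermat.Agent.EC.Rep.Local.GoodOrder
import Fermat.Agent.EC.Rep.Tate.DetCyclotomic
import Fermat.Agent.FiniteFlat.GalOrderHopf
import Fermat.Agent.FiniteFlat.GalOrderOps

/-!
# Flatness at primes of good reduction

For an integral model with good reduction at `p` the `p`-adic Tate module is flat at `p`.
-/

set_option autoImplicit false

noncomputable section

open scoped WeierstrassCurve.Affine
open WeierstrassCurve Fermat.Agent.Arith Fermat.Agent.FiniteFlat

namespace Fermat.Agent.EC.Rep

variable {A : Type} [CommRing A] [IsLocalRing A]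

/-- The action on a level of a representation. -/
@[reducible] def levelDistribMulAction (ρ : GaloisRepAdic A) (I : Ideal A) :
    DistribMulAction GQ (ρ.V ⧸ (I • (⊤ : Submodule A ρ.V))) where
  smul σ v := ρ.levelAction I σ v
  one_smul v := by
    obtain ⟨v, rfl⟩ := Submodule.Quotient.mk_surjective _ v
    show ρ.levelAction I 1 _ = _
    rw [GaloisRepAdic.levelAction, Submodule.mapQ_apply, map_one, Module.End.one_apply]
  mul_smul σ τ v := by
    obtain ⟨v, rfl⟩ := Submodule.Quotient.mk_surjective _ v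
    show ρ.levelAction I (σ * τ) _ = ρ.levelAction I σ (ρ.levelAction I τ _)
    simp only [GaloisRepAdic.levelAction, Submodule.mapQ_apply, map_mul, Module.End.mul_apply]
  smul_zero σ := map_zero (ρ.levelAction I σ)
  smul_add σ v w := map_add (ρ.levelAction I σ) v w

/-- A representation whose finite levels are equivariant quotients of modules with Galois orders
is flat. -/
theorem isFlatAt_of_galOrder (ρ : GaloisRepAdic A) (p : ℕ)
    (hres : Finite (IsLocalRing.ResidueField A))
    (h : ∀ I : Ideal A, Finite (A ⧸ I) →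
      ∃ (M : Type) (_ : AddCommGroup M) (_ : DistribMulAction GQ M) (_ : Finite M)
        (_ : GalOrder p M) (π : M →+ (ρ.V ⧸ (I • (⊤ : Submodule A ρ.V)))),
        Function.Surjective π ∧ ∀ (σ : GQ) (m : M), π (σ • m) = ρ.levelAction I σ (π m)) :
    ρ.IsFlatAt p := by
  refine ⟨hres, fun I hI => ?_⟩
  obtain ⟨M, _, _, _, O, π, hπ, hσ⟩ := h I hI
  let := levelDistribMulAction ρ I
  have : Finite (ρ.V ⧸ (I • (⊤ : Submodule A ρ.V))) := Finite.of_surjective π hπ
  exact (O.quotient π hπ hσ).exists_hopfAlgebra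

variable {W : WeierstrassCurve ℤ} {p : ℕ} [Fact p.Prime] (hΔ : W.Δ ≠ 0)

omit [Fact p.Prime] in
/-- The Galois order on `E[n]`, `n` a power of a good prime `p`. -/
theorem exists_galOrder_torsion_pow (hp : p.Prime) (hgood : W.IsGoodPrimeFor p) (k : ℕ) :
    Nonempty (GalOrder p (TorsPt W (p ^ k))) := by
  classical
  obtain ⟨A, hA⟩ := exists_liesOverPrime hp
  obtain ⟨ℓ, hℓge, hℓ⟩ := Nat.exists_infinite_primes (p + 4)
  have h4 : 4 ≤ ℓ := by omega
  refine exists_galOrder_torsion hA hp hgood hℓ (by omega) (fun h => ?_) (by omega) (by omega)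
    (pow_ne_zero _ hp.ne_zero)
  have := (Nat.prime_dvd_prime_iff_eq hℓ hp).mp (hℓ.dvd_of_dvd_pow h)
  omega

theorem finite_torsPt (hΔ : W.Δ ≠ 0) {n : ℕ} (hn : n ≠ 0) : Finite (TorsPt W n) := by
  have : (W.map (Int.castRingHom ℚ)).IsElliptic := FrobTrace.isElliptic_map_rat hΔ
  exact Nat.finite_of_card_ne_zero (by
    rw [Torsion.natCard_torsionBy_algebraicClosureRat (W.map (Int.castRingHom ℚ)) hn]
    exact pow_ne_zero 2 hn)

/-- The Tate module is flat at a good prime `p`. -/
theorem isFlatAt_tateRep (hgood : W.IsGoodPrimeFor p) : (tateRep W p hΔ).IsFlatAt p := by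
  classical
  have hp : p.Prime := Fact.out
  refine isFlatAt_of_galOrder _ p
    (Finite.of_equiv (ZMod p) PadicInt.residueField.symm.toEquiv) fun I hI => ?_
  have hne : I ≠ ⊥ := by
    rintro rfl
    have : Finite ℤ_[p] := Finite.of_equiv _ (RingEquiv.quotientBot ℤ_[p]).toEquiv
    exact not_finite ℤ_[p]
  obtain ⟨k, rfl⟩ := PadicInt.ideal_eq_span_pow_p hne
  obtain ⟨O⟩ := exists_galOrder_torsion_pow (W := W) hp hgood k
  set N := (Ideal.span {(p : ℤ_[p]) ^ k}) • (⊤ : Submodule ℤ_[p] (tateRep W p hΔ).V) with hN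
  have hker : ∀ v, tateRed hΔ k v = 0 → v ∈ N := by
    intro v hv
    obtain ⟨h1, h2⟩ := (tateRed_eq_zero_iff hΔ k v).mp hv
    obtain ⟨c₁, hc₁⟩ := Ideal.mem_span_singleton'.mp h1
    obtain ⟨c₂, hc₂⟩ := Ideal.mem_span_singleton'.mp h2
    have e : v = (p : ℤ_[p]) ^ k • (show (tateRep W p hΔ).V from (c₁, c₂)) :=
      Prod.ext (hc₁.symm.trans (mul_comm _ _)) (hc₂.symm.trans (mul_comm _ _))
    rw [e]
    exact Submodule.smul_mem_smul (Ideal.mem_span_singleton_self _) Submodule.mem_top
  have hlift : ∀ x : TorsPt W (p ^ k), ∃ v, tateRed hΔ k v = Subtype.val x := fun x =>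
    exists_tateRed_eq hΔ k (by
      have := (Submodule.mem_torsionBy_iff _ _).mp x.2
      push_cast at this
      exact this)
  choose v hv using hlift
  refine ⟨TorsPt W (p ^ k), inferInstance, inferInstance, finite_torsPt hΔ (pow_ne_zero k hp.ne_zero),
    O, AddMonoidHom.mk' (fun x => Submodule.Quotient.mk (v x)) (fun x y => ?_),
    fun q => ?_, fun σ x => ?_⟩
  · rw [← Submodule.Quotient.mk_add, Submodule.Quotient.eq]
    refine hker _ ?_
    rw [map_sub, map_add, hv, hv, hv, Submodule.coe_add, sub_self]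
  · obtain ⟨w, rfl⟩ := Submodule.Quotient.mk_surjective _ q
    refine ⟨⟨tateRed hΔ k w, ?_⟩, ?_⟩
    · rw [Submodule.mem_torsionBy_iff]; push_cast; exact pow_smul_tateRed hΔ k w
    · show Submodule.Quotient.mk _ = _
      rw [Submodule.Quotient.eq]
      refine hker _ ?_
      rw [map_sub, hv, sub_self]
  · show Submodule.Quotient.mk (v (σ • x)) =
      (tateRep W p hΔ).levelAction _ σ (Submodule.Quotient.mk (v x))
    rw [GaloisRepAdic.levelAction, Submodule.mapQ_apply, Submodule.Quotient.eq]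
    refine hker _ ?_
    rw [map_sub, red_tateRep, hv, hv, sub_eq_zero]
    rfl

end Fermat.Agent.EC.Rep
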