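import Fermat.Agent.EC.Reduction.GoodPrime
import Fermat.Agent.EC.Rep.Residual
import Fermat.Agent.FiniteFlat.OfLattice
import Mathlib.LinearAlgebra.TensorProduct.Finiteness

/-!
# Galois orders on torsion at a place of good reduction

At a place `A` over a prime of good reduction, the coordinates of `P + T`, for `T` nonzero of an
auxiliary prime order `ℓ`, generate a lattice of functions on `E[n]` (`ℓ ∤ n`) compatible with
the group law; its equivariant part is a Galois order.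
-/

set_option autoImplicit false

noncomputable section

open scoped WeierstrassCurve.Affine Pointwise TensorProduct
open WeierstrassCurve Fermat.Agent.Arith

namespace Fermat.Agent.EC.Rep

open Fermat.Agent.EC.Reduction Fermat.Agent.FiniteFlat

variable {W : WeierstrassCurve ℤ}

local notation "Pt" =>
  WeierstrassCurve.Affine.Point ((W.map (Int.castRingHom ℚ))⁄(AlgebraicClosure ℚ))

/-- The abscissa of a point, `0` at the origin. -/
def xCoord : Pt → AlgebraicClosure ℚ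
  | .zero => 0
  | .some x _ _ => x

/-- The ordinate of a point, `0` at the origin. -/
def yCoord : Pt → AlgebraicClosure ℚ
  | .zero => 0
  | .some _ y _ => y

theorem xCoord_smul (σ : GQ) (P : Pt) : xCoord (σ • P) = σ (xCoord P) := by
  match P with
  | .zero => exact (map_zero σ).symm
  | .some x y h => rfl

theorem yCoord_smul (σ : GQ) (P : Pt) : yCoord (σ • P) = σ (yCoord P) := by
  match P with
  | .zero => exact (map_zero σ).symm
  | .some x y h => rfl

variable (W) (A : ValuationSubring QBar) (n ℓ : ℕ)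

/-- The `n`-torsion points. -/
abbrev TorsPt : Type := Submodule.torsionBy ℤ Pt (n : ℤ)

/-- The coordinate functions `P ↦ x (P + T), y (P + T)`. -/
def coordGens : Set (TorsPt W n → QBar) :=
  {f | ∃ T : Pt, ℓ • T = 0 ∧ T ≠ 0 ∧
    (f = (fun P : TorsPt W n => xCoord ((P : Pt) + T)) ∨
      f = fun P : TorsPt W n => yCoord ((P : Pt) + T))}

/-- The lattice of functions they generate. -/
def coordLattice : Subalgebra A (TorsPt W n → QBar) := Algebra.adjoin A (coordGens W n ℓ)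

variable {W A n ℓ} {p : ℕ}

theorem xFun_mem {T : Pt} (hT : ℓ • T = 0) (hT0 : T ≠ 0) :
    (fun P : TorsPt W n => xCoord ((P : Pt) + T)) ∈ coordLattice W A n ℓ :=
  Algebra.subset_adjoin ⟨T, hT, hT0, Or.inl rfl⟩

theorem yFun_mem {T : Pt} (hT : ℓ • T = 0) (hT0 : T ≠ 0) :
    (fun P : TorsPt W n => yCoord ((P : Pt) + T)) ∈ coordLattice W A n ℓ :=
  Algebra.subset_adjoin ⟨T, hT, hT0, Or.inr rfl⟩

theorem nsmul_coe_torsPt (P : TorsPt W n) : n • (P : Pt) = 0 := by
  rw [← natCast_zsmul]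
  exact (Submodule.mem_torsionBy_iff _ _).mp P.2

theorem eq_zero_of_nsmul_of_coprime {G : Type*} [AddGroup G] {T : G} {a b : ℕ} (hab : a.Coprime b)
    (ha : a • T = 0) (hb : b • T = 0) : T = 0 := by
  have := Nat.dvd_gcd (addOrderOf_dvd_of_nsmul_eq_zero ha) (addOrderOf_dvd_of_nsmul_eq_zero hb)
  rw [hab.gcd_eq_one, Nat.dvd_one, AddMonoid.addOrderOf_eq_one_iff] at this
  exact this

section Good

variable (hA : A.LiesOverPrime p) (hp : p.Prime) (hgood : ¬ (p : ℤ) ∣ W.Δ) (hℓ : ℓ.Prime)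
  (hℓp : ℓ ≠ p) (hn : ¬ ℓ ∣ n)

include hA hp hℓ hℓp in
/-- Torsion of order `ℓ` meets the kernel of reduction trivially. -/
theorem eq_zero_of_inE1 {T : Pt} (hT : ℓ • T = 0) (h : InE1 A T) : T = 0 := by
  classical
  exact (reducesTo_int W A).eq_zero_of_nsmul_eq_zero (valuation_natCast_eq_one hA hp
    fun hd => hℓp ((Nat.prime_dvd_prime_iff_eq hp hℓ).mp hd).symm) h hT

include hA hp hℓ hℓp hn in
/-- Translates by points of order `ℓ` stay away from the kernel of reduction. -/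
theorem not_inE1_add {T : Pt} (hT : ℓ • T = 0) (hT0 : T ≠ 0) (P : TorsPt W n) :
    ¬ InE1 A ((P : Pt) + T) := by
  classical
  intro h
  have h1 : n • ((P : Pt) + T) ∈ (reducesTo_int W A).E1 :=
    nsmul_mem (show (P : Pt) + T ∈ (reducesTo_int W A).E1 from h) n
  rw [nsmul_add, nsmul_coe_torsPt, zero_add] at h1
  have h2 : n • T = 0 := eq_zero_of_inE1 hA hp hℓ hℓp
    (by rw [nsmul_left_comm, hT, nsmul_zero]) h1
  exact hT0 (eq_zero_of_nsmul_of_coprime ((hℓ.coprime_iff_not_dvd).mpr hn) hT h2)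

include hA hp hℓ hℓp hn in
theorem exists_coord {T : Pt} (hT : ℓ • T = 0) (hT0 : T ≠ 0) (P : TorsPt W n) :
    ∃ x y, ∃ h : Affine.Nonsingular ((W.map (Int.castRingHom ℚ))⁄(AlgebraicClosure ℚ)).toAffine x y,
      (P : Pt) + T = Affine.Point.some x y h ∧ x ∈ A ∧ y ∈ A := by
  match hQ : (P : Pt) + T with
  | .zero => exact absurd (by rw [hQ]; trivial) (not_inE1_add hA hp hℓ hℓp hn hT hT0 P)
  | .some x y h =>
    have hx : x ∈ A := by
      by_contra hx
      exact not_inE1_add hA hp hℓ hℓp hn hT hT0 P (by rw [hQ]; exact hx)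
    exact ⟨x, y, h, rfl, hx, (reducesTo_int W A).y_mem h.left hx⟩

include hA hp hgood hℓ hℓp hn in
/-- Translates by `2 T` and `-T` have distinct residual abscissae. -/
theorem res_xCoord_ne (hℓ3 : ℓ ≠ 3) {T : Pt} (hT : ℓ • T = 0) (hT0 : T ≠ 0) (P Q : TorsPt W n)
    {x₁ y₁ x₂ y₂ : QBar}
    {h₁ : Affine.Nonsingular ((W.map (Int.castRingHom ℚ))⁄(AlgebraicClosure ℚ)).toAffine x₁ y₁}
    {h₂ : Affine.Nonsingular ((W.map (Int.castRingHom ℚ))⁄(AlgebraicClosure ℚ)).toAffine x₂ y₂}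
    (e₁ : (P : Pt) + 2 • T = Affine.Point.some x₁ y₁ h₁)
    (e₂ : (Q : Pt) + -T = Affine.Point.some x₂ y₂ h₂) (hx₁ : x₁ ∈ A) (hx₂ : x₂ ∈ A) :
    res A x₁ ≠ res A x₂ := by
  classical
  intro hres
  set h := reducesTo_int W A
  have hU := inE0_of_good hA hp hgood ((P : Pt) + 2 • T)
  have hV := inE0_of_good hA hp hgood ((Q : Pt) + -T)
  have n₁ := (e₁ ▸ hU : InE0 A _ (Affine.Point.some x₁ y₁ h₁)).resolve_left (not_not_intro hx₁)
  have n₂ := (e₂ ▸ hV : InE0 A _ (Affine.Point.some x₂ y₂ h₂)).resolve_left (not_not_intro hx₂)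
  have hcases : ((P : Pt) + 2 • T) - ((Q : Pt) + -T) ∈ h.E1 ∨
      ((P : Pt) + 2 • T) - -((Q : Pt) + -T) ∈ h.E1 := by
    rcases Affine.Y_eq_of_X_eq n₁.left n₂.left hres with hy | hy
    · refine Or.inl (h.sub_mem_E1 hU hV ?_)
      rw [e₁, e₂, redFun_some _ hx₁ n₁, redFun_some _ hx₂ n₂]
      exact some_eq_some _ _ hres hy
    · refine Or.inr (h.sub_mem_E1 hU (h.neg_spec hV).1 ?_)
      rw [(h.neg_spec hV).2, e₁, e₂, redFun_some _ hx₁ n₁, redFun_some _ hx₂ n₂,
        Affine.Point.neg_some]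
      exact some_eq_some _ _ hres hy
  have hkey : ∀ m : ℕ, m = 1 ∨ m = 3 → (n * m) • T ∈ h.E1 → False := by
    intro m hm hmem
    have h2 := eq_zero_of_inE1 hA hp hℓ hℓp (by rw [nsmul_left_comm, hT, nsmul_zero]) hmem
    refine hT0 (eq_zero_of_nsmul_of_coprime ?_ hT h2)
    refine Nat.Coprime.mul_right ((hℓ.coprime_iff_not_dvd).mpr hn) ?_
    rcases hm with rfl | rfl
    · exact Nat.coprime_one_right ℓ
    · exact (Nat.coprime_primes hℓ Nat.prime_three).mpr hℓ3
  have hnP := nsmul_coe_torsPt P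
  have hnQ := nsmul_coe_torsPt Q
  rcases hcases with hc | hc
  · refine hkey 3 (Or.inr rfl) ?_
    have h1 := nsmul_mem hc n
    rwa [show (P : Pt) + 2 • T - ((Q : Pt) + -T) = ((P : Pt) - (Q : Pt)) + 3 • T by abel,
      nsmul_add, nsmul_sub, hnP, hnQ, sub_self, zero_add, ← mul_nsmul'] at h1
  · refine hkey 1 (Or.inl rfl) ?_
    have h1 := nsmul_mem hc n
    rwa [show (P : Pt) + 2 • T - -((Q : Pt) + -T) = ((P : Pt) + (Q : Pt)) + T by abel,
      nsmul_add, nsmul_add, hnP, hnQ, add_zero, zero_add, ← mul_one n] at h1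

include hA hp hℓ hℓp hn in
theorem coordLattice_apply_mem {f : TorsPt W n → QBar} (hf : f ∈ coordLattice W A n ℓ)
    (P : TorsPt W n) : f P ∈ A := by
  induction hf using Algebra.adjoin_induction with
  | mem f hf =>
    obtain ⟨T, hT, hT0, rfl | rfl⟩ := hf <;>
      (obtain ⟨x, y, h, e, hx, hy⟩ := exists_coord hA hp hℓ hℓp hn hT hT0 P
       dsimp only
       rw [e])
    · exact hx
    · exact hy
  | algebraMap r => exact r.2
  | add f g _ _ h1 h2 => exact add_mem h1 h2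
  | mul f g _ _ h1 h2 => exact mul_mem h1 h2

include hA hp hgood hℓ hℓp hn in
/-- The lattice is compatible with addition. -/
theorem coordLattice_comul [Finite (TorsPt W n)] (hℓ2 : ℓ ≠ 2) (hℓ3 : ℓ ≠ 3) {f : TorsPt W n → QBar}
    (hf : f ∈ coordLattice W A n ℓ) :
    ∃ (m : ℕ) (a b : Fin m → (TorsPt W n → QBar)), (∀ i, a i ∈ coordLattice W A n ℓ) ∧
      (∀ i, b i ∈ coordLattice W A n ℓ) ∧ ∀ P Q, f (P + Q) = ∑ i, a i P * b i Q := by
  classical
  have := Fintype.ofFinite (TorsPt W n)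
  set S := coordLattice W A n ℓ
  let M2 := TorsPt W n × TorsPt W n
  let Φ : S ⊗[A] S →ₐ[A] (M2 → QBar) := Algebra.TensorProduct.lift
    ((AlgHom.pi fun z : M2 => (Pi.evalAlgHom A (fun _ : TorsPt W n => QBar) z.1).comp S.val))
    ((AlgHom.pi fun z : M2 => (Pi.evalAlgHom A (fun _ : TorsPt W n => QBar) z.2).comp S.val))
    fun _ _ => Commute.all _ _
  have hΦ : ∀ (a b : S) (z : M2), Φ (a ⊗ₜ b) z = a.1 z.1 * b.1 z.2 := fun a b z => by simp [Φ]
  let P2 : Subalgebra A (M2 → QBar) := Φ.range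
  have hfst : ∀ a ∈ S, (fun z : M2 => a z.1) ∈ P2 := fun a ha =>
    ⟨⟨a, ha⟩ ⊗ₜ 1, funext fun z => (hΦ _ _ z).trans (mul_one _)⟩
  have hsnd : ∀ a ∈ S, (fun z : M2 => a z.2) ∈ P2 := fun a ha =>
    ⟨1 ⊗ₜ ⟨a, ha⟩, funext fun z => (hΦ _ _ z).trans (one_mul _)⟩
  have hconst : ∀ {c : QBar}, c ∈ A → (fun _ : M2 => c) ∈ P2 := fun {c} hc =>
    P2.algebraMap_mem (⟨c, hc⟩ : A)
  have hinv : ∀ g ∈ P2, (∀ z, g z ∈ A ∧ g z ∉ A.nonunits) → (fun z => (g z)⁻¹) ∈ P2 := by
    intro g hg hval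
    let q : Polynomial A := ∏ z : M2, (Polynomial.X - Polynomial.C ⟨g z, (hval z).1⟩)
    have hq : Polynomial.aeval g q = 0 := funext fun z => by
      simp only [q, map_prod, Finset.prod_apply, map_sub, Polynomial.aeval_X, Polynomial.aeval_C,
        Pi.sub_apply, Pi.algebraMap_apply, Pi.zero_apply]
      exact Finset.prod_eq_zero (Finset.mem_univ z) (sub_self _)
    have hq0 : ((q.coeff 0 : A) : QBar) ∈ A ∧ ((q.coeff 0 : A) : QBar) ∉ A.nonunits := by
      refine ⟨(q.coeff 0).2, fun hmem => ?_⟩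
      rw [← Polynomial.constantCoeff_apply, map_prod] at hmem
      rw [ValuationSubring.coe_mem_nonunits_iff, Ideal.IsPrime.prod_mem_iff] at hmem
      obtain ⟨z, -, hz⟩ := hmem
      simp only [Polynomial.constantCoeff_apply, Polynomial.coeff_sub, Polynomial.coeff_X_zero,
        Polynomial.coeff_C_zero, zero_sub, Ideal.neg_mem_iff] at hz
      exact (hval z).2 (ValuationSubring.coe_mem_nonunits_iff.mpr hz)
    obtain ⟨hc0, hcinv⟩ := (notMem_nonunits_iff hq0.1).mp hq0.2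
    have e : (fun z => (g z)⁻¹) =
        (fun _ : M2 => -((q.coeff 0 : A) : QBar)⁻¹) * Polynomial.aeval g q.divX := by
      rw [← Polynomial.X_mul_divX_add q, map_add, map_mul, Polynomial.aeval_X,
        Polynomial.aeval_C] at hq
      funext z
      have hz := congrFun hq z
      have hg0 : g z ≠ 0 := fun e => (hval z).2 (e ▸ by simp)
      simp only [Pi.add_apply, Pi.mul_apply, Pi.algebraMap_apply, Pi.zero_apply] at hz ⊢
      rw [show algebraMap A QBar (q.coeff 0) = ((q.coeff 0 : A) : QBar) from rfl] at hz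
      field_simp
      linear_combination hz
    rw [e]
    refine P2.mul_mem (hconst (neg_mem hcinv)) ?_
    have e1 : Polynomial.aeval g q.divX =
        P2.val (Polynomial.aeval (⟨g, hg⟩ : P2) q.divX) :=
      Polynomial.aeval_algHom_apply P2.val (⟨g, hg⟩ : P2) q.divX
    rw [e1]
    exact Subtype.coe_prop _
  let pull : (TorsPt W n → QBar) →ₐ[A] (M2 → QBar) :=
    AlgHom.pi fun z : M2 =>
      Pi.evalAlgHom A (fun _ : TorsPt W n => QBar) (z.1 + z.2)
  have hpull : ∀ g ∈ S, pull g ∈ P2 := by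
    refine fun g hg => (Algebra.adjoin_le ?_ : S ≤ P2.comap pull) hg
    rintro g ⟨T, hT, hT0, hg⟩
    have hT2 : ℓ • (2 • T) = 0 := by rw [nsmul_left_comm, hT, nsmul_zero]
    have hT20 : 2 • T ≠ 0 := fun e => hT0 (eq_zero_of_nsmul_of_coprime
      ((Nat.coprime_primes hℓ Nat.prime_two).mpr hℓ2) hT e)
    have hTn : ℓ • -T = 0 := by rw [neg_nsmul, hT, neg_zero]
    have hTn0 : -T ≠ 0 := neg_ne_zero.mpr hT0
    set x₁ : M2 → QBar := fun z => xCoord ((z.1 : Pt) + 2 • T) with hx₁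
    set y₁ : M2 → QBar := fun z => yCoord ((z.1 : Pt) + 2 • T) with hy₁
    set x₂ : M2 → QBar := fun z => xCoord ((z.2 : Pt) + -T) with hx₂
    set y₂ : M2 → QBar := fun z => yCoord ((z.2 : Pt) + -T) with hy₂
    have m₁ : x₁ ∈ P2 := hfst _ (xFun_mem hT2 hT20)
    have n₁ : y₁ ∈ P2 := hfst _ (yFun_mem hT2 hT20)
    have m₂ : x₂ ∈ P2 := hsnd _ (xFun_mem hTn hTn0)
    have n₂ : y₂ ∈ P2 := hsnd _ (yFun_mem hTn hTn0)
    set Wc := ((W.map (Int.castRingHom ℚ))⁄(AlgebraicClosure ℚ)).toAffine with hWc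
    have hcoord : ∀ z : M2, ∃ a₁ b₁ a₂ b₂, ∃ (h₁ : Wc.Nonsingular a₁ b₁)
        (h₂ : Wc.Nonsingular a₂ b₂), (z.1 : Pt) + 2 • T = Affine.Point.some a₁ b₁ h₁ ∧
        (z.2 : Pt) + -T = Affine.Point.some a₂ b₂ h₂ ∧ a₁ ∈ A ∧ a₂ ∈ A ∧
        a₁ - a₂ ∈ A ∧ a₁ - a₂ ∉ A.nonunits := fun z => by
      obtain ⟨a₁, b₁, h₁, e₁, ha₁, -⟩ := exists_coord hA hp hℓ hℓp hn hT2 hT20 z.1
      obtain ⟨a₂, b₂, h₂, e₂, ha₂, -⟩ := exists_coord hA hp hℓ hℓp hn hTn hTn0 z.2
      refine ⟨a₁, b₁, a₂, b₂, h₁, h₂, e₁, e₂, ha₁, ha₂, sub_mem ha₁ ha₂, fun hm => ?_⟩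
      refine res_xCoord_ne hA hp hgood hℓ hℓp hn hℓ3 hT hT0 z.1 z.2 e₁ e₂ ha₁ ha₂ ?_
      rw [← sub_eq_zero, ← res_sub ha₁ ha₂]
      exact res_eq_zero hm
    have hd : (fun z => (x₁ z - x₂ z)⁻¹) ∈ P2 := hinv _ (P2.sub_mem m₁ m₂) fun z => by
      obtain ⟨a₁, b₁, a₂, b₂, h₁, h₂, e₁, e₂, -, -, hmem, hu⟩ := hcoord z
      simp only [hx₁, hx₂, e₁, e₂]
      exact ⟨hmem, hu⟩
    set lam : M2 → QBar := (y₁ - y₂) * fun z => (x₁ z - x₂ z)⁻¹ with hlam
    have ml : lam ∈ P2 := P2.mul_mem (P2.sub_mem n₁ n₂) hd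
    have hc := (reducesTo_int W A)
    set X : M2 → QBar :=
      lam ^ 2 + (fun _ => Wc.a₁) * lam - (fun _ => Wc.a₂) - x₁ - x₂ with hX
    set Y : M2 → QBar := -(lam * (X - x₁) + y₁) - (fun _ => Wc.a₁) * X - fun _ => Wc.a₃ with hY
    have mX : X ∈ P2 := P2.sub_mem (P2.sub_mem (P2.sub_mem (P2.add_mem (P2.pow_mem ml 2)
      (P2.mul_mem (hconst hc.a₁_mem) ml)) (hconst hc.a₂_mem)) m₁) m₂
    have mY : Y ∈ P2 := P2.sub_mem (P2.sub_mem (P2.neg_mem (P2.add_mem
      (P2.mul_mem ml (P2.sub_mem mX m₁)) n₁)) (P2.mul_mem (hconst hc.a₁_mem) mX))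
      (hconst hc.a₃_mem)
    have hval : ∀ z : M2, xCoord (((z.1 + z.2 : TorsPt W n) : Pt) + T) = X z ∧
        yCoord (((z.1 + z.2 : TorsPt W n) : Pt) + T) = Y z := by
      intro z
      obtain ⟨a₁, b₁, a₂, b₂, h₁, h₂, e₁, e₂, -, -, -, hu⟩ := hcoord z
      have hne : a₁ ≠ a₂ := fun e => hu (by
        rw [e, sub_self]; simp)
      have e : ((z.1 + z.2 : TorsPt W n) : Pt) + T =
          ((z.1 : Pt) + 2 • T) + ((z.2 : Pt) + -T) := by
        rw [Submodule.coe_add, two_nsmul]; abel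
      rw [e, e₁, e₂, Affine.Point.add_of_X_ne hne]
      simp only [xCoord, yCoord, hY, hX, hlam, hx₁, hy₁, hx₂, hy₂, e₁, e₂, Pi.sub_apply,
        Pi.add_apply, Pi.mul_apply, Pi.pow_apply, Pi.neg_apply, Affine.addY, Affine.negY,
        Affine.negAddY, Affine.addX, Affine.slope_of_X_ne hne, div_eq_mul_inv, hWc]
      exact ⟨trivial, trivial⟩
    rcases hg with rfl | rfl
    · show (fun z : M2 => xCoord (((z.1 + z.2 : TorsPt W n) : Pt) + T)) ∈ P2
      rw [show (fun z : M2 => xCoord (((z.1 + z.2 : TorsPt W n) : Pt) + T)) = X from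
        funext fun z => (hval z).1]
      exact mX
    · show (fun z : M2 => yCoord (((z.1 + z.2 : TorsPt W n) : Pt) + T)) ∈ P2
      rw [show (fun z : M2 => yCoord (((z.1 + z.2 : TorsPt W n) : Pt) + T)) = Y from
        funext fun z => (hval z).2]
      exact mY
  obtain ⟨t, ht⟩ := hpull f hf
  obtain ⟨s, hs⟩ := TensorProduct.exists_finset t
  let e := s.equivFin
  refine ⟨s.card, fun i => (e.symm i).1.1.1, fun i => (e.symm i).1.2.1, fun i => Subtype.coe_prop _,
    fun i => Subtype.coe_prop _, fun P Q => ?_⟩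
  have h1 : Φ t (P, Q) = f (P + Q) := congrFun ht (P, Q)
  rw [← h1, hs, map_sum, Finset.sum_apply, ← Finset.sum_coe_sort,
    ← e.symm.sum_comp]
  exact Finset.sum_congr rfl fun i _ => hΦ _ _ _

include hA hp hgood hℓ hℓp hn in
/-- The Galois order on `E[n]` at a prime of good reduction. -/
theorem exists_galOrder_torsion (hℓ2 : ℓ ≠ 2) (hℓ3 : ℓ ≠ 3) (hn0 : n ≠ 0) :
    Nonempty (GalOrder p (TorsPt W n)) := by
  classical
  have hΔ : W.Δ ≠ 0 := fun e => hgood (e ▸ dvd_zero _)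
  have : (W.map (Int.castRingHom ℚ)).IsElliptic := FrobTrace.isElliptic_map_rat hΔ
  have : Finite (TorsPt W n) := Nat.finite_of_card_ne_zero (by
    rw [Torsion.natCard_torsionBy_algebraicClosureRat (W.map (Int.castRingHom ℚ)) hn0]
    exact pow_ne_zero 2 hn0)
  obtain ⟨T₀, hT₀, hT₀0⟩ : ∃ T : Pt, ℓ • T = 0 ∧ T ≠ 0 := by
    have hc := Torsion.natCard_torsionBy_algebraicClosureRat (W.map (Int.castRingHom ℚ))
      hℓ.ne_zero
    have : Finite (TorsPt W ℓ) := Nat.finite_of_card_ne_zero (by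
      rw [hc]; exact pow_ne_zero 2 hℓ.ne_zero)
    have : Nontrivial (TorsPt W ℓ) :=
      Finite.one_lt_card_iff_nontrivial.mp (hc ▸ Nat.one_lt_pow two_ne_zero hℓ.one_lt)
    obtain ⟨T, hT⟩ := exists_ne (0 : TorsPt W ℓ)
    exact ⟨T, nsmul_coe_torsPt T, fun e => hT (Subtype.ext e)⟩
  set S := coordLattice W A n ℓ with hS
  let U : Subgroup GQ :=
    { carrier := {σ | ∀ T : Pt, ℓ • T = 0 → σ • T = T}
      one_mem' := fun T _ => one_smul _ T
      mul_mem' := fun {a b} ha hb T hT => by rw [mul_smul, hb T hT, ha T hT]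
      inv_mem' := fun {a} ha T hT => by
        conv_lhs => rw [← ha T hT]
        exact inv_smul_smul a T }
  have hU : IsOpen (U : Set GQ) := by
    obtain ⟨L, hLfin, hL⟩ := Torsion.galoisFactorsThroughFiniteLevel_galoisRepModuleEnd
      (W.map (Int.castRingHom ℚ)) (n := ℓ) hℓ.ne_zero
    refine Subgroup.isOpen_mono (fun σ hσ T hT => ?_) (IntermediateField.fixingSubgroup_isOpen L)
    exact congrArg Subtype.val (LinearMap.congr_fun
      (hL σ fun z hz => (IntermediateField.mem_fixingSubgroup_iff _ _).mp hσ z hz)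
      ⟨T, by rw [Submodule.mem_torsionBy_iff, natCast_zsmul]; exact hT⟩)
  have hI : A.inertiaSubgroupIn ℚ ≤ U := fun σ hσ T hT =>
    smul_eq_self_of_inE0 W hA hp hσ (fun hd => hℓp ((Nat.prime_dvd_prime_iff_eq hp hℓ).mp hd).symm)
      (inE0_of_good hA hp hgood T) hT
  have hgal : ∀ (σ : GQ) (T : Pt) (hT : ℓ • T = 0),
      galAct σ (fun P : TorsPt W n => xCoord ((P : Pt) + T)) =
        (fun P : TorsPt W n => xCoord ((P : Pt) + σ • T)) ∧
      galAct σ (fun P : TorsPt W n => yCoord ((P : Pt) + T)) =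
        (fun P : TorsPt W n => yCoord ((P : Pt) + σ • T)) := by
    intro σ T hT
    have e : ∀ P : TorsPt W n, σ • (((σ⁻¹ • P : TorsPt W n) : Pt) + T) = (P : Pt) + σ • T :=
      fun P => by
        refine (map_add (DistribSMul.toAddMonoidHom Pt σ) _ _).trans ?_
        exact congrArg (· + σ • T) (smul_inv_smul σ (P : Pt))
    constructor <;> funext P <;> simp only [galAct]
    · rw [← xCoord_smul, e]
    · rw [← yCoord_smul, e]
  have hD : ∀ d : GQ, d • A = A → ∀ f ∈ S, galAct d f ∈ S := by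
    intro d hd f hf
    induction hf using Algebra.adjoin_induction with
    | mem f hf =>
      obtain ⟨T, hT, hT0, hf⟩ := hf
      have h1 : ℓ • (d • T) = 0 :=
        ((DistribSMul.toAddMonoidHom Pt d).map_nsmul ℓ T).symm.trans (by rw [hT, map_zero])
      have h2 : d • T ≠ 0 := fun e => hT0 (by rwa [← smul_zero d, smul_left_cancel_iff] at e)
      rcases hf with rfl | rfl
      · rw [(hgal d T hT).1]; exact xFun_mem h1 h2
      · rw [(hgal d T hT).2]; exact yFun_mem h1 h2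
    | algebraMap r =>
      have e : galAct d (algebraMap A (TorsPt W n → QBar) r) =
          algebraMap A (TorsPt W n → QBar) ⟨d r, map_mem_of_mem_decomposition hd r.2⟩ := rfl
      rw [e]
      exact S.algebraMap_mem _
    | add f g _ _ h1 h2 =>
      rw [show galAct d (f + g) = galAct d f + galAct d g from funext fun m => map_add d _ _]
      exact S.add_mem h1 h2
    | mul f g _ _ h1 h2 =>
      rw [show galAct d (f * g) = galAct d f * galAct d g from funext fun m => map_mul d _ _]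
      exact S.mul_mem h1 h2
  have hgen : S.toSubmodule ≤
      Submodule.span A {f | f ∈ S ∧ ∀ u ∈ U, galAct u f = f} := by
    rw [hS, coordLattice, Algebra.adjoin_eq_span]
    refine Submodule.span_mono fun f hf => ?_
    induction hf using Submonoid.closure_induction with
    | mem f hf =>
      refine ⟨Algebra.subset_adjoin hf, fun u hu => ?_⟩
      obtain ⟨T, hT, -, rfl | rfl⟩ := hf
      · rw [(hgal u T hT).1, hu T hT]
      · rw [(hgal u T hT).2, hu T hT]
    | one => exact ⟨Subalgebra.one_mem _, fun u _ => funext fun m => map_one u⟩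
    | mul f g _ _ h1 h2 =>
      refine ⟨Subalgebra.mul_mem _ h1.1 h2.1, fun u hu => ?_⟩
      rw [show galAct u (f * g) = galAct u f * galAct u g from funext fun m => map_mul u _ _,
        h1.2 u hu, h2.2 u hu]
  have hsep : ∀ P Q : TorsPt W n, (∀ f ∈ S, f P = f Q) → P = Q := by
    intro P Q h
    obtain ⟨a₁, b₁, h₁, e₁, -, -⟩ := exists_coord hA hp hℓ hℓp hn hT₀ hT₀0 P
    obtain ⟨a₂, b₂, h₂, e₂, -, -⟩ := exists_coord hA hp hℓ hℓp hn hT₀ hT₀0 Q
    have hx := h _ (xFun_mem (A := A) hT₀ hT₀0)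
    have hy := h _ (yFun_mem (A := A) hT₀ hT₀0)
    simp only [e₁, e₂, xCoord, yCoord] at hx hy
    refine Subtype.ext (add_right_cancel (b := T₀) ?_)
    rw [e₁, e₂]
    exact some_eq_some _ _ hx hy
  have hneg : ∀ f ∈ S, (fun P => f (-P)) ∈ S := by
    let neg : (TorsPt W n → QBar) →ₐ[A] (TorsPt W n → QBar) :=
      AlgHom.pi fun P : TorsPt W n => Pi.evalAlgHom A (fun _ : TorsPt W n => QBar) (-P)
    refine fun f hf => (Algebra.adjoin_le ?_ : S ≤ S.comap neg) hf
    rintro g ⟨T, hT, hT0, hg⟩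
    have hTn : ℓ • -T = 0 := by rw [neg_nsmul, hT, neg_zero]
    have hTn0 : -T ≠ 0 := neg_ne_zero.mpr hT0
    have hc := reducesTo_int W A
    set Wc := ((W.map (Int.castRingHom ℚ))⁄(AlgebraicClosure ℚ)).toAffine with hWc
    have key : ∀ P : TorsPt W n,
        xCoord (((-P : TorsPt W n) : Pt) + T) = xCoord ((P : Pt) + -T) ∧
        yCoord (((-P : TorsPt W n) : Pt) + T) = -yCoord ((P : Pt) + -T) -
          Wc.a₁ * xCoord ((P : Pt) + -T) - Wc.a₃ := by
      intro P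
      obtain ⟨x, y, h, e, -, -⟩ := exists_coord hA hp hℓ hℓp hn hTn hTn0 P
      have e' : ((-P : TorsPt W n) : Pt) + T = -Affine.Point.some x y h := by
        rw [← e, Submodule.coe_neg]; abel
      rw [e', e, Affine.Point.neg_some]
      exact ⟨rfl, rfl⟩
    rcases hg with rfl | rfl
    · show (fun P : TorsPt W n => xCoord (((-P : TorsPt W n) : Pt) + T)) ∈ S
      simp only [fun P => (key P).1]
      exact xFun_mem hTn hTn0
    · show (fun P : TorsPt W n => yCoord (((-P : TorsPt W n) : Pt) + T)) ∈ S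
      simp only [fun P => (key P).2]
      exact S.sub_mem (S.sub_mem (S.neg_mem (yFun_mem hTn hTn0))
        (S.mul_mem (S.algebraMap_mem ⟨_, hc.a₁_mem⟩) (xFun_mem hTn hTn0)))
        (S.algebraMap_mem ⟨_, hc.a₃_mem⟩)
  obtain ⟨O, -⟩ := exists_galOrder_of_lattice hA hp S
    (fun f hf => coordLattice_apply_mem hA hp hℓ hℓp hn hf) hD hU hI hgen hsep
    (fun f hf => coordLattice_comul hA hp hgood hℓ hℓp hn hℓ2 hℓ3 hf) hneg
  exact ⟨O⟩

end Good

end Fermat.Agent.EC.Rep
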