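import Fermat.Prelude.Def_GaloisRep_StrictOrdinary
import Mathlib.LinearAlgebra.Matrix.ToLin
import Mathlib.LinearAlgebra.StdBasis

/-!
# Strict ordinarity from a line with sign quotient character
-/

set_option autoImplicit false

namespace Fermat.Agent.EC.Rep

variable {A : Type} [CommRing A] [IsLocalRing A]

/-- A representation with cyclotomic determinant is strictly ordinary at `p` as soon as, at every
place over `p`, it has a free line with free quotient on which the decomposition group acts by a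
character of square one which is trivial on inertia. -/
theorem isStrictOrdinaryAt_of_lines {p : ℕ} (ρ : GaloisRepAdic A) (hdet : ρ.DetIsCyclotomic p)
    (h : ∀ P : ValuationSubring (AlgebraicClosure ℚ), P.LiesOverPrime p →
      ∃ b : Module.Basis (Fin 2) A ρ.V,
        (∀ σ ∈ P.inertiaSubgroupIn ℚ, ∀ v : ρ.V, ρ.ρ σ v - v ∈ A ∙ b 0) ∧
        ∀ σ ∈ P.decompositionSubgroup ℚ, ρ.ρ σ (b 0) ∈ A ∙ b 0 ∧
          ∃ z : A, z * z = 1 ∧ ∀ v : ρ.V, ρ.ρ σ v - z • v ∈ A ∙ b 0) :
    ρ.IsStrictOrdinaryAt p := by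
  refine ⟨hdet.1, fun P hP => ?_⟩
  obtain ⟨b, hI, hD⟩ := h P hP
  refine ⟨A ∙ b 0, ⟨b, rfl⟩, fun σ hσ v hv => ?_, hI, fun σ hσ => ?_⟩
  · obtain ⟨c, rfl⟩ := Submodule.mem_span_singleton.mp hv
    rw [map_smul]
    exact Submodule.smul_mem _ c (hD σ hσ).1
  obtain ⟨h0, z, hz, hv⟩ := hD σ hσ
  obtain ⟨x, hx⟩ := Submodule.mem_span_singleton.mp h0
  obtain ⟨c, hc⟩ := Submodule.mem_span_singleton.mp (hv (b 1))
  refine ⟨x, z, fun w hw => ?_, hv, fun n a ha => ?_⟩
  · obtain ⟨d, rfl⟩ := Submodule.mem_span_singleton.mp hw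
    rw [map_smul, ← hx, smul_comm]
  have h1 : ρ.ρ σ (b 1) = c • b 0 + z • b 1 := by rw [hc]; abel
  have hd : LinearMap.det (ρ.ρ σ) = x * z := by
    rw [← LinearMap.det_toMatrix b, Matrix.det_fin_two]
    simp [LinearMap.toMatrix_apply, ← hx, h1]
  have h2 := Ideal.mul_mem_right z _ (hdet.2 n σ a ha)
  rw [hd] at h2
  rwa [sub_mul, mul_assoc, hz, mul_one] at h2

/-- A pair with a unit entry is the first vector of a basis. -/
theorem exists_basis_zero_eq {R : Type*} [CommRing R] (w : R × R)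
    (hw : IsUnit w.1 ∨ IsUnit w.2) : ∃ b : Module.Basis (Fin 2) R (R × R), b 0 = w := by
  rcases hw with ⟨u, hu⟩ | ⟨u, hu⟩
  · refine ⟨(Module.Basis.finTwoProd R).map
      { toFun := fun q => (q.1 * w.1, q.1 * w.2 + q.2)
        map_add' := fun q q' => Prod.ext (by simp; ring) (by simp; ring)
        map_smul' := fun c q => Prod.ext (by simp; ring) (by simp; ring)
        invFun := fun q => (q.1 * ↑u⁻¹, q.2 - q.1 * ↑u⁻¹ * w.2)
        left_inv := fun q => by simp [← hu, mul_assoc]
        right_inv := fun q => by simp [← hu, mul_assoc] }, ?_⟩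
    simp
  · refine ⟨(Module.Basis.finTwoProd R).map
      { toFun := fun q => (q.1 * w.1 + q.2, q.1 * w.2)
        map_add' := fun q q' => Prod.ext (by simp; ring) (by simp; ring)
        map_smul' := fun c q => Prod.ext (by simp; ring) (by simp; ring)
        invFun := fun q => (q.2 * ↑u⁻¹, q.1 - q.2 * ↑u⁻¹ * w.1)
        left_inv := fun q => by simp [← hu, mul_assoc]
        right_inv := fun q => by simp [← hu, mul_assoc] }, ?_⟩
    simp

end Fermat.Agent.EC.Rep
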