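import Fermat.Agent.EC.Multiplicative.Count
import Fermat.Agent.EC.AtP.Line
import Fermat.Agent.Arith.RootsOfUnity

/-!
# The `p`-power torsion at a place of multiplicative reduction over `p`

The `p ^ n`-torsion with nonsingular reduction is cyclic of order `p ^ n`, and it does not exhaust
the `p`-torsion when `p` is odd.
-/

set_option autoImplicit false

open scoped WeierstrassCurve.Affine Pointwise
open WeierstrassCurve Polynomial Fermat.Agent.Arith

namespace Fermat.Agent.EC.Rep

open Fermat.Agent.EC.Reduction Fermat.Agent.EC.Multiplicative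

local notation "Q̄" => AlgebraicClosure ℚ

theorem preNormEDS'_zero_of_three_le {R : Type*} [CommRing R] :
    ∀ n : ℕ, 3 ≤ n → preNormEDS' (0 : R) 0 0 n = 0 := by
  intro n
  induction n using Nat.strong_induction_on with
  | _ n ih =>
    intro hn
    by_cases h3 : n = 3
    · subst h3; simp
    by_cases h4 : n = 4
    · subst h4; simp
    rcases Nat.even_or_odd n with ⟨k, hk⟩ | ⟨k, hk⟩
    · obtain ⟨m, rfl⟩ : ∃ m, n = 2 * (m + 3) := ⟨k - 3, by omega⟩
      rw [preNormEDS'_even, ih (m + 3) (by omega) (by omega)]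
      simp
    · obtain ⟨m, rfl⟩ : ∃ m, n = 2 * (m + 2) + 1 := ⟨k - 2, by omega⟩
      rw [preNormEDS'_odd, ih (m + 4) (by omega) (by omega), ih (m + 3) (by omega) (by omega)]
      simp

/-- At the node all division polynomials of index at least three vanish. -/
theorem eval_preΨ'_node {k : Type*} [Field k] {V : Affine k} (C : NodalCurve V) {n : ℕ}
    (hn : 3 ≤ n) : (WeierstrassCurve.preΨ' V n).eval C.r = 0 := by
  have e3 : V.a₃ = -V.a₁ * C.r - 2 * C.t := by linear_combination C.eq₃
  have e4 : V.a₄ = V.a₁ * C.t - 2 * V.a₂ * C.r - 3 * C.r ^ 2 := by linear_combination C.eq₄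
  have e6 : V.a₆ =
      C.t ^ 2 + V.a₃ * C.t + V.a₁ * C.r * C.t - C.r ^ 3 - V.a₂ * C.r ^ 2 - V.a₄ * C.r := by
    have h := C.eq₆
    unfold nodeConst at h
    linear_combination h
  have h2 : (WeierstrassCurve.Ψ₂Sq V).eval C.r = 0 := by
    simp only [WeierstrassCurve.Ψ₂Sq, WeierstrassCurve.b₂, WeierstrassCurve.b₄,
      WeierstrassCurve.b₆, eval_add, eval_mul, eval_pow, eval_C, eval_X]
    rw [e6, e3, e4]; ring
  have h3 : (WeierstrassCurve.Ψ₃ V).eval C.r = 0 := by
    simp only [WeierstrassCurve.Ψ₃, WeierstrassCurve.b₂, WeierstrassCurve.b₄,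
      WeierstrassCurve.b₆, WeierstrassCurve.b₈, eval_add, eval_mul, eval_pow, eval_C, eval_X,
      eval_ofNat]
    rw [e6, e3, e4]; ring
  have h4 : (WeierstrassCurve.preΨ₄ V).eval C.r = 0 := by
    simp only [WeierstrassCurve.preΨ₄, WeierstrassCurve.b₂, WeierstrassCurve.b₄,
      WeierstrassCurve.b₆, WeierstrassCurve.b₈, eval_add, eval_mul, eval_pow, eval_C, eval_X,
      eval_ofNat]
    rw [e6, e3, e4]; ring
  rw [WeierstrassCurve.preΨ', ← coe_evalRingHom, map_preNormEDS', map_pow, coe_evalRingHom, h2, h3,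
    h4, zero_pow two_ne_zero]
  exact preNormEDS'_zero_of_three_le n hn

variable {W : WeierstrassCurve ℤ} {p : ℕ} {A : ValuationSubring Q̄}

/-- At a node over the odd prime `p`, not all of `E[p]` reduces to the origin. -/
theorem exists_torsion_not_inE1 (hA : A.LiesOverPrime p) (hp : p.Prime) (hp2 : p ≠ 2)
    (hΔ0 : W.Δ ≠ 0) (hΔ : (p : ℤ) ∣ W.Δ) (hc₄ : ¬ (p : ℤ) ∣ W.c₄) :
    ∃ P : AtP.PointQBar W, p • P = 0 ∧ ¬ InE1 A P := by
  by_contra hall
  simp only [not_exists, not_and, not_not] at hall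
  have : (W.map (Int.castRingHom ℚ)).IsElliptic :=
    (WeierstrassCurve.isElliptic_iff _).mpr (isUnit_iff_ne_zero.mpr (by
      rw [map_Δ]; simpa using hΔ0))
  have hodd : Odd p := hp.odd_of_ne_two hp2
  have hroots : ∀ x : Q̄, ((W.preΨ' p).map (Int.castRingHom Q̄)).eval x = 0 → x ∉ A := by
    intro x hx
    obtain ⟨y, hy⟩ := Fermat.Agent.EC.Torsion.exists_equation
      ((W.map (Int.castRingHom ℚ))⁄Q̄).toAffine x
    have hns := Affine.equation_iff_nonsingular.mp hy
    exact hall _ ((AtP.eval_preΨ'_eq_zero_iff W hodd hns).mp hx)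
  obtain ⟨h0, h1⟩ := AtP.dvd_coeff_of_roots_notMem hA hp _
    (AtP.exists_not_dvd_coeff_preΨ' W hp hp2 (fun h => hc₄ h.1) hodd) hroots
  obtain ⟨N, -⟩ := exists_node_int hA hp hΔ0 hΔ hc₄
  have hv := eval_preΨ'_node N.nodal (n := p) (by have := hp.two_le; omega)
  rw [WeierstrassCurve.map_preΨ'] at hv
  refine h0 ((residual_intCast_eq_zero_iff hA hp _).mp ?_)
  have e : (W.preΨ' p).map (Int.castRingHom (IsLocalRing.ResidueField A)) =
      C (((W.preΨ' p).coeff 0 : ℤ) : IsLocalRing.ResidueField A) := by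
    ext i
    cases i with
    | zero => simp
    | succ i =>
      rw [coeff_map, coeff_C_succ, eq_intCast]
      exact (residual_intCast_eq_zero_iff hA hp _).mpr (h1 i)
  rwa [e, eval_C] at hv

section Node

variable [DecidableEq (IsLocalRing.ResidueField A)]
  {V : Affine (IsLocalRing.ResidueField A)} {W' : Affine Q̄}

/-- `p`-power torsion with nonsingular reduction reduces to the origin at a place over `p`. -/
theorem inE1_of_pow_nsmul_eq_zero [DecidableEq Q̄] (N : Node A W' V) (hA : A.LiesOverPrime p)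
    (hp : p.Prime) {n : ℕ} {P : W'.Point} (hP : InE0 A V P) (h : p ^ n • P = 0) : InE1 A P := by
  have := residueField_charP hA hp
  have := Fact.mk hp
  refine (N.mu_eq_zero_iff ⟨P, hP⟩).mp ?_
  set u := N.mu ⟨P, hP⟩ with hu
  have h1 : p ^ n • u = 0 := by
    rw [hu, ← map_nsmul, show p ^ n • (⟨P, hP⟩ : N.red.E0) = 0 from Subtype.ext h, map_zero]
  have h2 : ((Additive.toMul u : (IsLocalRing.ResidueField A)ˣ) : IsLocalRing.ResidueField A)
      ^ p ^ n = 1 := by
    rw [← Units.val_pow_eq_pow_val, ← toMul_nsmul, h1, toMul_zero, Units.val_one]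
  have h3 : (((Additive.toMul u : (IsLocalRing.ResidueField A)ˣ) : IsLocalRing.ResidueField A) - 1)
      ^ p ^ n = 0 := by
    rw [sub_pow_char_pow, h2, one_pow, sub_self]
  exact Additive.toMul.injective (Units.ext (sub_eq_zero.mp (pow_eq_zero_iff'.mp h3).1))

/-- `E₀[n]` has at least `n` elements when `E[n]` has `n ^ 2`. -/
theorem le_natCard_e0Torsion [DecidableEq Q̄] (N : Node A W' V) {n : ℕ} (hn0 : n ≠ 0)
    (hcard : Nat.card (Submodule.torsionBy ℤ W'.Point n) = n ^ 2) :
    n ≤ Nat.card (N.e0Torsion n) := by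
  obtain ⟨hfin, hT⟩ := N.card_compTarget_torsion_le hn0
  have := hfin
  set T := (Submodule.torsionBy ℤ W'.Point n).toAddSubgroup with hTdef
  set f : T →+ N.CompTarget := N.compHom.comp T.subtype with hf
  have hker : Nat.card f.ker = Nat.card (N.e0Torsion n) := Nat.card_congr
    { toFun := fun P => ⟨P.1.1, (N.comp_eq_zero_iff _).mp P.2, P.1.2⟩
      invFun := fun P => ⟨⟨P.1, P.2.2⟩, (N.comp_eq_zero_iff _).mpr P.2.1⟩
      left_inv := fun P => rfl
      right_inv := fun P => rfl }
  have hrange : Nat.card f.range ≤ n := by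
    refine (Nat.card_le_card_of_injective
      (fun g : f.range => (⟨g.1, ?_⟩ : {g : N.CompTarget // n • g = 0})) ?_).trans hT
    · obtain ⟨P, hP⟩ := g.2
      rw [← hP, ← map_nsmul, show n • P = 0 from Subtype.ext (by
        have := (Submodule.mem_torsionBy_iff _ _).mp P.2
        rwa [natCast_zsmul] at this), map_zero]
    · intro g g' h
      exact Subtype.ext (by simpa using h)
  have hprod := AddSubgroup.card_eq_card_quotient_mul_card_addSubgroup f.ker
  rw [Nat.card_congr (QuotientAddGroup.quotientKerEquivRange f).toEquiv, hker,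
    show Nat.card T = n ^ 2 from hcard, sq] at hprod
  exact Nat.le_of_mul_le_mul_left (hprod.le.trans (Nat.mul_le_mul_right _ hrange))
    (Nat.pos_of_ne_zero hn0)

end Node

open scoped Classical in
/-- The kernel of reduction gives a compatible system of cyclic subgroups of order `p ^ n`,
which is all the `p`-power torsion with nonsingular reduction. -/
theorem exists_inE0_system (hA : A.LiesOverPrime p) (hp : p.Prime) (hp2 : p ≠ 2)
    (hΔ0 : W.Δ ≠ 0) (hΔ : (p : ℤ) ∣ W.Δ) (hc₄ : ¬ (p : ℤ) ∣ W.c₄) :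
    ∃ R : ℕ → AtP.PointQBar W, (∀ n, (p : ℤ) ^ n • R n = 0) ∧
      (∀ n, (p : ℤ) • R (n + 1) = R n) ∧ R 1 ≠ 0 ∧
      (∀ n, InE0 A (W.map (Int.castRingHom (IsLocalRing.ResidueField A))) (R n)) ∧
      ∀ n (x : AtP.PointQBar W), (p : ℤ) ^ n • x = 0 →
        InE0 A (W.map (Int.castRingHom (IsLocalRing.ResidueField A))) x → ∃ a : ℤ, x = a • R n := by
  have : (W.map (Int.castRingHom ℚ)).IsElliptic :=
    (WeierstrassCurve.isElliptic_iff _).mpr (isUnit_iff_ne_zero.mpr (by
      rw [map_Δ]; simpa using hΔ0))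
  have := Fact.mk hp
  obtain ⟨N, -⟩ := exists_node_int hA hp hΔ0 hΔ hc₄
  set Cn : ℕ → AddSubgroup (AtP.PointQBar W) := fun n => N.e0Torsion (p ^ n) with hCn
  have hmem : ∀ n x, x ∈ Cn n ↔
      InE0 A (W.map (Int.castRingHom (IsLocalRing.ResidueField A))) x ∧ p ^ n • x = 0 :=
    fun n x => N.mem_e0Torsion
  have hcard : ∀ n, Nat.card (Submodule.torsionBy ℤ (AtP.PointQBar W) (p ^ n : ℕ)) = (p ^ n) ^ 2 :=
    fun n => Fermat.Agent.EC.Torsion.natCard_torsionBy_algebraicClosureRat
      (W.map (Int.castRingHom ℚ)) (pow_ne_zero n hp.ne_zero)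
  have hlow : ∀ n, p ^ n ≤ Nat.card (Cn n) := fun n =>
    le_natCard_e0Torsion N (pow_ne_zero n hp.ne_zero) (hcard n)
  have hfin : ∀ n, Finite (Cn n) := fun n => Nat.finite_of_card_ne_zero (by
    have := hlow n; have := Nat.one_le_pow n p hp.pos; omega)
  have hC1 : Nat.card (Cn 1) = p := by
    set T := (Submodule.torsionBy ℤ (AtP.PointQBar W) (p ^ 1 : ℕ)).toAddSubgroup with hT
    have hle : Cn 1 ≤ T := inf_le_right
    have hne : Cn 1 ≠ T := by
      intro e
      obtain ⟨P, hP, hP1⟩ := exists_torsion_not_inE1 hA hp hp2 hΔ0 hΔ hc₄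
      have : P ∈ Cn 1 := by
        rw [e, hT, Submodule.mem_toAddSubgroup, Submodule.mem_torsionBy_iff, natCast_zsmul,
          pow_one]
        exact hP
      exact hP1 (inE1_of_pow_nsmul_eq_zero N hA hp ((hmem 1 P).mp this).1 ((hmem 1 P).mp this).2)
    have hTcard : Nat.card T = p ^ 2 := by rw [hT]; exact (hcard 1).trans (by rw [pow_one])
    have hd : Nat.card (Cn 1) ∣ p ^ 2 := hTcard ▸ AddSubgroup.card_dvd_of_le hle
    obtain ⟨i, hi, hi'⟩ := (Nat.dvd_prime_pow hp).mp hd
    have h1 := hlow 1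
    rw [pow_one, hi'] at h1
    interval_cases i
    · rw [pow_zero] at h1; have := hp.two_le; omega
    · rw [hi', pow_one]
    · have : Finite T := Nat.finite_of_card_ne_zero (by rw [hTcard]; exact pow_ne_zero 2 hp.ne_zero)
      exact absurd (AddSubgroup.eq_of_le_of_card_ge hle (hTcard.trans hi'.symm).le) hne
  set f : ∀ n, Cn (n + 1) →+ Cn n := fun n =>
    { toFun := fun x => ⟨p • (x : AtP.PointQBar W), by
        obtain ⟨h0, h1⟩ := (hmem _ _).mp x.2
        refine (hmem _ _).mpr ⟨?_, by rw [← mul_smul, ← pow_succ]; exact h1⟩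
        show p • (x : AtP.PointQBar W) ∈ N.red.E0
        exact nsmul_mem (show (x : AtP.PointQBar W) ∈ N.red.E0 from h0) p⟩
      map_zero' := Subtype.ext (smul_zero p)
      map_add' := fun x y => Subtype.ext
        (smul_add p (x : AtP.PointQBar W) (y : AtP.PointQBar W)) } with hf
  have hker : ∀ n, Nat.card (f n).ker ≤ p := fun n => by
    have := hfin 1
    refine (Nat.card_le_card_of_injective (fun x : (f n).ker => (⟨((x : Cn (n + 1)) :
      AtP.PointQBar W), (hmem 1 _).mpr ⟨((hmem _ _).mp x.1.2).1, ?_⟩⟩ : Cn 1)) ?_).trans_eq hC1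
    · rw [pow_one]; exact congrArg Subtype.val x.2
    · intro x y h
      exact Subtype.ext (Subtype.ext (congrArg (fun z : Cn 1 => (z : AtP.PointQBar W)) h))
  have hstep : ∀ n, Nat.card (Cn (n + 1)) = Nat.card (f n).range * Nat.card (f n).ker := fun n => by
    rw [AddSubgroup.card_eq_card_quotient_mul_card_addSubgroup (f n).ker,
      Nat.card_congr (QuotientAddGroup.quotientKerEquivRange (f n)).toEquiv]
  have hCcard : ∀ n, Nat.card (Cn n) = p ^ n := by
    intro n
    refine le_antisymm ?_ (hlow n)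
    induction n with
    | zero =>
      rw [pow_zero]
      refine (Nat.card_eq_one_iff_unique.mpr ⟨⟨fun (x y : Cn 0) => Subtype.ext ?_⟩, ⟨(0 : Cn 0)⟩⟩).le
      have h1 := ((hmem 0 _).mp x.2).2
      have h2 := ((hmem 0 _).mp y.2).2
      rw [pow_zero, one_smul] at h1 h2
      rw [h1, h2]
    | succ n ih =>
      have := hfin n
      rw [hstep, pow_succ]
      exact Nat.mul_le_mul ((AddSubgroup.card_le_card_addGroup _).trans ih) (hker n)
  have hsurj : ∀ n, Function.Surjective (f n) := by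
    intro n
    have := hfin n
    rw [← AddMonoidHom.range_eq_top]
    refine AddSubgroup.eq_top_of_le_card _ (Nat.le_of_mul_le_mul_right ?_ hp.pos)
    rw [hCcard, ← pow_succ, ← hCcard (n + 1), hstep]
    exact Nat.mul_le_mul_left _ (hker n)
  choose g hg using hsurj
  obtain ⟨R₁, hR₁⟩ : ∃ x : Cn 1, x ≠ 0 :=
    have := hfin 1
    have : Nontrivial (Cn 1) := Finite.one_lt_card_iff_nontrivial.mp (hC1.symm ▸ hp.one_lt)
    exists_ne 0
  let S : ∀ n, Cn (n + 1) := fun n => Nat.rec R₁ (fun k x => g (k + 1) x) n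
  let R : ℕ → AtP.PointQBar W := fun n => match n with
    | 0 => 0
    | k + 1 => (S k).1
  have hR : ∀ n, R n ∈ Cn n := fun n => by
    match n with
    | 0 => exact zero_mem _
    | k + 1 => exact (S k).2
  have htor : ∀ n, (p : ℤ) ^ n • R n = 0 := fun n => by
    rw [← Nat.cast_pow, natCast_zsmul]; exact ((hmem n _).mp (hR n)).2
  have hRstep : ∀ n, (p : ℤ) • R (n + 1) = R n := fun n => by
    match n with
    | 0 => have := htor 1; rwa [pow_one] at this
    | k + 1 =>
      rw [natCast_zsmul]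
      exact congrArg Subtype.val (hg (k + 1) (S k))
  have hRpow : ∀ n, (p : ℤ) ^ n • R (n + 1) = R 1 := fun n => by
    induction n with
    | zero => rw [pow_zero, one_smul]
    | succ k ih =>
      rw [pow_succ]
      exact (mul_smul _ _ _).trans ((congrArg _ (hRstep (k + 1))).trans ih)
  refine ⟨R, htor, hRstep, fun e => hR₁ (Subtype.ext e), fun n => ((hmem n _).mp (hR n)).1, ?_⟩
  intro n
  induction n with
  | zero =>
    intro x hx _
    rw [pow_zero, one_smul] at hx
    exact ⟨0, hx.trans (zero_smul ℤ (R 0)).symm⟩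
  | succ k ih =>
    intro x hx hx0
    have h0 : p • x ∈ N.red.E0 := nsmul_mem (show x ∈ N.red.E0 from hx0) p
    obtain ⟨a, ha⟩ := ih ((p : ℤ) • x) (by rw [← mul_smul, ← pow_succ]; exact hx)
      (by rw [natCast_zsmul]; exact h0)
    have hy : x - a • R (k + 1) ∈ Cn 1 := by
      refine (hmem 1 _).mpr ⟨?_, ?_⟩
      · exact sub_mem (show x ∈ N.red.E0 from hx0)
          (zsmul_mem (show R (k + 1) ∈ N.red.E0 from ((hmem _ _).mp (hR (k + 1))).1) a)
      · have e : (p : ℤ) • (x - a • R (k + 1)) = 0 :=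
          (zsmul_sub x (a • R (k + 1)) (p : ℤ)).trans (sub_eq_zero.mpr
            (ha.trans ((congrArg (a • ·) (hRstep k).symm).trans (smul_comm _ _ _))))
        rw [pow_one, ← natCast_zsmul]
        exact e
    have := hfin 1
    have hgen := mem_zmultiples_of_prime_card (G := Cn 1) (g := R₁) (g' := ⟨_, hy⟩) hC1 hR₁
    obtain ⟨j, hj⟩ := AddSubgroup.mem_zmultiples_iff.mp hgen
    refine ⟨a + j * (p : ℤ) ^ k, ?_⟩
    have hj' : j • R 1 = x - a • R (k + 1) := congrArg Subtype.val hj
    have e : (j * (p : ℤ) ^ k) • R (k + 1) = x - a • R (k + 1) :=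
      (mul_smul _ _ _).trans ((congrArg (j • ·) (hRpow k)).trans hj')
    exact ((add_smul _ _ _).trans ((congrArg _ e).trans (add_sub_cancel _ _))).symm

end Fermat.Agent.EC.Rep
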